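/-
Project BAD, block LevelQ, section Sym of the hub (owner helper217): the Atkin-Lehner symmetry of
the structure `LQ`.
-/
import Fermat.Agent.BAD.LevelQ.Hub
import Fermat.Agent.BAD.LevelQ.Abs.Change
import Fermat.Agent.S18.Chart.Const

set_option autoImplicit false

noncomputable section

namespace Fermat.Agent.BAD.LevelQ

open Polynomial IntermediateField Fermat.Agent.S18

variable {K₀ F' F : Type*} [Field K₀] [Field F'] [Field F] [Algebra K₀ F'] [Algebra K₀ F]
variable {A₀ : ValuationSubring K₀} {ϖ₀ : K₀} {q : ℕ} {al be : F' →ₐ[K₀] F} {w : F ≃ₐ[K₀] F}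
  {γ : F' →+* F'} {Ow' : ValuationSubring F'} {V : Fin 2 → ValuationSubring F} {x' : F'}

/-! ### transport of structure along an automorphism -/

section Transport

variable {W W' : ValuationSubring F}

theorem sym_val_lt (hW : ∀ y, y ∈ W' ↔ w y ∈ W) (y : F) :
    W'.valuation y < 1 ↔ W.valuation (w y) < 1 := by
  rw [change_val_lt_one_iff, change_val_lt_one_iff, hW, map_inv₀, EmbeddingLike.map_eq_zero_iff]

theorem sym_val_eq (hW : ∀ y, y ∈ W' ↔ w y ∈ W) (y : F) :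
    W'.valuation y = 1 ↔ W.valuation (w y) = 1 := by
  rw [change_val_eq_one_iff, change_val_eq_one_iff, hW, hW, map_inv₀, Ne, Ne,
    EmbeddingLike.map_eq_zero_iff]

theorem sym_isUnif (hW : ∀ y, y ∈ W' ↔ w y ∈ W) {ϖ : F} (h : IsUnif W (w ϖ)) : IsUnif W' ϖ where
  mem := (hW _).mpr h.mem
  inv_notMem := fun hm => h.inv_notMem (by
    have := (hW _).mp hm
    rwa [map_inv₀] at this)
  exists_zpow := fun y hy => by
    obtain ⟨n, h1, h2⟩ := h.exists_zpow (w y) ((EmbeddingLike.map_ne_zero_iff).mpr hy)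
    refine ⟨n, (hW _).mpr ?_, (hW _).mpr ?_⟩
    · rwa [map_div₀, map_zpow₀]
    · rwa [map_inv₀, map_div₀, map_zpow₀]

theorem sym_mem_adjoin {z z' : F} (φ : F →ₐ[K₀] F) (hz : φ z = z') {a : F} (ha : a ∈ K₀⟮z⟯) :
    φ a ∈ K₀⟮z'⟯ := by
  have h : K₀⟮z⟯ ≤ (K₀⟮z'⟯).comap φ := by
    rw [adjoin_simple_le_iff]
    show φ z ∈ K₀⟮z'⟯
    rw [hz]
    exact mem_adjoin_simple_self K₀ z'
  exact h ha

/-- the isomorphism `K₀(z) ≃ K₀(z')` induced by `w⁻¹`, `w z' = z`. -/
def symAdjoinEquiv (w : F ≃ₐ[K₀] F) {z z' : F} (hz : w z' = z) : K₀⟮z⟯ ≃+* K₀⟮z'⟯ where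
  toFun a := ⟨w.symm a, sym_mem_adjoin (w.symm : F →ₐ[K₀] F)
    (by rw [← hz]; exact w.symm_apply_apply z') a.2⟩
  invFun b := ⟨w b, sym_mem_adjoin (w : F →ₐ[K₀] F) hz b.2⟩
  left_inv a := Subtype.ext (w.apply_symm_apply _)
  right_inv b := Subtype.ext (w.symm_apply_apply _)
  map_mul' a b := Subtype.ext (map_mul w.symm _ _)
  map_add' a b := Subtype.ext (map_add w.symm _ _)

theorem coe_symAdjoinEquiv (w : F ≃ₐ[K₀] F) {z z' : F} (hz : w z' = z) (a : K₀⟮z⟯) :
    ((symAdjoinEquiv w hz a : K₀⟮z'⟯) : F) = w.symm a := rfl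

/-- transport of `IsMVert` along an automorphism. -/
theorem sym_isMVert {ι : Type*} {U U' : ι → ValuationSubring F}
    (hU : ∀ c y, y ∈ U' c ↔ w y ∈ U c) {z z' : F} (hz : w z' = z)
    (h : IsMVert A₀ ϖ₀ U K₀⟮z⟯) : IsMVert A₀ ϖ₀ U' K₀⟮z'⟯ where
  unif₀ := h.unif₀
  const_mem := fun c a ha => (hU c _).mpr (by rw [w.commutes]; exact h.const_mem c a ha)
  lt_one := fun c => (sym_val_lt (hU c) _).mpr (by rw [w.commutes]; exact h.lt_one c)
  finite := by
    have := h.finite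
    exact Module.Finite.of_equiv_equiv (symAdjoinEquiv w hz) (w.symm : F ≃+* F)
      (RingHom.ext fun a => rfl)
  integral := fun y hy => by
    obtain ⟨p, hp, hc, h0⟩ := h.integral (w y) fun c => (hU c y).mp (hy c)
    refine ⟨p.map (symAdjoinEquiv w hz : K₀⟮z⟯ →+* K₀⟮z'⟯), hp.map _, fun i c => ?_, ?_⟩
    · rw [coeff_map]
      refine (hU c _).mpr ?_
      show w (w.symm (p.coeff i : F)) ∈ U c
      rw [w.apply_symm_apply]
      exact hc i c
    · rw [aeval_def, eval₂_map]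
      have e : (algebraMap K₀⟮z'⟯ F).comp (symAdjoinEquiv w hz : K₀⟮z⟯ →+* K₀⟮z'⟯)
          = (w.symm : F →+* F).comp (algebraMap K₀⟮z⟯ F) := RingHom.ext fun a => rfl
      have hy' : y = (w.symm : F →+* F) (w y) := (w.symm_apply_apply y).symm
      rw [e, hy', ← hom_eval₂, ← aeval_def, h0, map_zero]

end Transport

/-! ### Sym : the symmetry `w` -/
section Sym

theorem LQ.val_one_lt (H : LQ A₀ ϖ₀ q al be w γ Ow' V x') (y : F) :
    (V 1).valuation y < 1 ↔ (V 0).valuation (w y) < 1 := sym_val_lt H.V_one y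

theorem LQ.val_one_eq (H : LQ A₀ ϖ₀ q al be w γ Ow' V x') (y : F) :
    (V 1).valuation y = 1 ↔ (V 0).valuation (w y) = 1 := sym_val_eq H.V_one y

theorem LQ.mem_zero_iff (H : LQ A₀ ϖ₀ q al be w γ Ow' V x') (y : F) : y ∈ V 0 ↔ w y ∈ V 1 := by
  rw [H.V_one, H.w_w]

theorem map_mem_chart_algHom (φ : F' →ₐ[K₀] F) (S : Subring K₀) {z y : F'} (h : y ∈ chart S z) :
    φ y ∈ chart S (φ z) := by
  have h1 : ∀ a ∈ polyRing S z, φ a ∈ polyRing S (φ z) := by
    intro a ha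
    rw [mem_polyRing_iff] at ha ⊢
    obtain ⟨p, hp, rfl⟩ := ha
    exact ⟨p, hp, aeval_algHom_apply φ z p⟩
  rw [mem_chart_iff_isIntegral] at h ⊢
  let τ : polyRing S z →+* polyRing S (φ z) :=
    ((φ : F' →+* F).comp (polyRing S z).subtype).codRestrict (polyRing S (φ z))
      (fun a => h1 a.1 a.2)
  exact IsIntegral.map_of_comp_eq τ (φ : F' →+* F) (RingHom.ext fun a => rfl) h

theorem map_mem_chart_algEquiv (w : F ≃ₐ[K₀] F) (S : Subring K₀) {z y : F} (h : y ∈ chart S z) :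
    w y ∈ chart S (w z) := map_mem_chart_algHom (w : F →ₐ[K₀] F) S h

/-- The swapped structure: `al ↔ be`, `V 0 ↔ V 1`. -/
theorem LQ.swap (H : LQ A₀ ϖ₀ q al be w γ Ow' V x') :
    LQ A₀ ϖ₀ q be al w γ Ow' ![V 1, V 0] x' where
  prime := H.prime
  char := H.char
  w_al := H.w_be
  w_be := H.w_al
  w_w := H.w_w
  V_one := H.mem_zero_iff
  vert' := H.vert'
  coord' := H.coord'
  chart₁' := H.chart₁'
  chart₂' := H.chart₂'
  unif := sym_isUnif (w := w) H.V_one (by rw [w.commutes]; exact H.unif)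
  comap_al := fun f => by
    show be f ∈ V 1 ↔ f ∈ Ow'
    rw [H.V_one, H.w_be, H.comap_al]
  comap_be := fun f => by
    show al f ∈ V 1 ↔ f ∈ Ow'
    rw [H.V_one, H.w_al, H.comap_be]
  dense := fun y hy => by
    obtain ⟨r, hr, h⟩ := H.dense (w y) ((H.V_one y).mp hy)
    refine ⟨r, hr, (H.val_one_lt _).mpr ?_⟩
    rwa [map_sub, H.w_be]
  γ_const := H.γ_const
  γ_x := H.γ_x
  γ_mem := H.γ_mem
  kron := fun f hf => by
    refine (H.val_one_lt _).mpr ?_
    rw [map_sub, map_pow, H.w_al, H.w_be]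
    exact H.kron f hf
  sep := by
    intro c c' hcc
    have key : ∀ d d' : Fin 2, d ≠ d' → ∃ e : F, (∀ k, e ∈ (![V 1, V 0] : Fin 2 → _) k) ∧
        (V d).valuation e = 1 ∧ (V d').valuation e < 1 := by
      intro d d' hdd
      obtain ⟨e, he, h1, h2⟩ := H.sep d d' hdd
      refine ⟨e, fun k => ?_, h1, h2⟩
      fin_cases k
      · exact he 1
      · exact he 0
    fin_cases c <;> fin_cases c'
    · exact absurd rfl hcc
    · exact key 1 0 (by decide)
    · exact key 0 1 (by decide)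
    · exact absurd rfl hcc
  complete := by
    refine sym_isMVert (w := w) (U := V) (fun c y => ?_) (H.w_be x') H.complete
    fin_cases c
    · exact H.V_one y
    · exact H.mem_zero_iff y
  be_int := by
    have := map_mem_chart_algEquiv w (⊤ : Subring K₀) H.be_int
    rwa [H.w_be, H.w_al] at this

end Sym

end Fermat.Agent.BAD.LevelQ

end
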