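/-
Project BAD, block LevelQ (owner helper39), task LQH-BASIC: coordinates and charts of the hub `LQ`.
-/
import Fermat.Agent.BAD.LevelQ.Hub
import Fermat.Agent.BAD.LevelQ.Hub.Sym
import Fermat.Agent.BAD.LevelQ.Abs.Mem
import Fermat.Agent.BAD.LevelQ.Abs.Coord
import Fermat.Agent.BAD.LevelQ.Abs.Change
import Fermat.Agent.BAD.LevelQ.Abs.Valuative
import Fermat.Agent.BAD.LevelQ.Abs.Finite
import Fermat.Agent.BAD.LevelQ.Abs.Loc
import Fermat.Agent.S18.Chart.Overlap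

set_option autoImplicit false

noncomputable section

namespace Fermat.Agent.BAD.LevelQ

open Polynomial IntermediateField Fermat.Agent.S18

variable {K₀ F' F : Type*} [Field K₀] [Field F'] [Field F] [Algebra K₀ F'] [Algebra K₀ F]
variable {A₀ : ValuationSubring K₀} {ϖ₀ : K₀} {q : ℕ} {al be : F' →ₐ[K₀] F} {w : F ≃ₐ[K₀] F}
  {γ : F' →+* F'} {Ow' : ValuationSubring F'} {V : Fin 2 → ValuationSubring F} {x' : F'}

section Basic

theorem LQ.unif_all (H : LQ A₀ ϖ₀ q al be w γ Ow' V x') (c : Fin 2) :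
    IsUnif (V c) (algebraMap K₀ F ϖ₀) := by
  fin_cases c
  · exact H.unif
  · exact H.swap.unif

theorem LQ.al_mem_iff (H : LQ A₀ ϖ₀ q al be w γ Ow' V x') (c : Fin 2) (f : F') :
    al f ∈ V c ↔ f ∈ Ow' := by
  fin_cases c
  · exact H.comap_al f
  · show al f ∈ V 1 ↔ f ∈ Ow'
    rw [H.V_one, H.w_al]
    exact H.comap_be f

theorem LQ.be_mem_iff (H : LQ A₀ ϖ₀ q al be w γ Ow' V x') (c : Fin 2) (f : F') :
    be f ∈ V c ↔ f ∈ Ow' := by
  fin_cases c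
  · exact H.comap_be f
  · show be f ∈ V 1 ↔ f ∈ Ow'
    rw [H.V_one, H.w_be]
    exact H.comap_al f

/-- a field homomorphism which pulls a valuation ring back to a valuation ring is compatible with
the maximal ideals. -/
theorem val_map_lt_one_iff {W : ValuationSubring F} {O : ValuationSubring F'} (φ : F' →+* F)
    (h : ∀ f, φ f ∈ W ↔ f ∈ O) (f : F') : W.valuation (φ f) < 1 ↔ O.valuation f < 1 := by
  rw [change_val_lt_one_iff, change_val_lt_one_iff, ← map_inv₀, h, map_eq_zero]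

theorem LQ.val_al_lt (H : LQ A₀ ϖ₀ q al be w γ Ow' V x') (c : Fin 2) (f : F') :
    (V c).valuation (al f) < 1 ↔ Ow'.valuation f < 1 :=
  val_map_lt_one_iff (al : F' →+* F) (H.al_mem_iff c) f

theorem LQ.val_be_lt (H : LQ A₀ ϖ₀ q al be w γ Ow' V x') (c : Fin 2) (f : F') :
    (V c).valuation (be f) < 1 ↔ Ow'.valuation f < 1 :=
  val_map_lt_one_iff (be : F' →+* F) (H.be_mem_iff c) f

theorem LQ.isMCoord' (H : LQ A₀ ϖ₀ q al be w γ Ow' V x') : IsMCoord A₀ Ow' x' :=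
  isMCoord_of_isCoord H.vert'.unif₀ H.vert'.unif H.coord'

theorem LQ.isMCoord_al (H : LQ A₀ ϖ₀ q al be w γ Ow' V x') (c : Fin 2) :
    IsMCoord A₀ (V c) (al x') := by
  refine ⟨(H.al_mem_iff c x').2 H.coord'.mem, fun p hp h => ?_⟩
  rw [aeval_algHom_apply, H.val_al_lt] at h
  exact H.isMCoord'.transc p hp h

theorem LQ.isMCoord_be (H : LQ A₀ ϖ₀ q al be w γ Ow' V x') (c : Fin 2) :
    IsMCoord A₀ (V c) (be x') := by
  refine ⟨(H.be_mem_iff c x').2 H.coord'.mem, fun p hp h => ?_⟩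
  rw [aeval_algHom_apply, H.val_be_lt] at h
  exact H.isMCoord'.transc p hp h

theorem LQ.be_mem_chart_al (H : LQ A₀ ϖ₀ q al be w γ Ow' V x') :
    be x' ∈ chart A₀.toSubring (al x') :=
  (mem_chart_iff H.complete H.isMCoord_al _).2
    ⟨fun c => (H.be_mem_iff c x').2 H.coord'.mem, H.be_int⟩

theorem LQ.al_mem_chart_be (H : LQ A₀ ϖ₀ q al be w γ Ow' V x') :
    al x' ∈ chart A₀.toSubring (be x') := by
  have h := map_mem_chart_algEquiv w A₀.toSubring H.be_mem_chart_al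
  rwa [H.w_al, H.w_be] at h

theorem LQ.al_mem_chart_xx (H : LQ A₀ ϖ₀ q al be w γ Ow' V x') :
    al x' ∈ ch₁ A₀ al be x' := mem_chart_mul H.al_mem_chart_be

theorem LQ.be_mem_chart_xx (H : LQ A₀ ϖ₀ q al be w γ Ow' V x') :
    be x' ∈ ch₁ A₀ al be x' := by
  have h := mem_chart_mul H.be_mem_chart_al
  rwa [mul_comm] at h

theorem LQ.xx_mem_chart_al (H : LQ A₀ ϖ₀ q al be w γ Ow' V x') :
    xx al be x' ∈ chart A₀.toSubring (al x') :=
  Subring.mul_mem _ (self_mem_chart _) H.be_mem_chart_al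

theorem LQ.xx_mem_chart_be (H : LQ A₀ ϖ₀ q al be w γ Ow' V x') :
    xx al be x' ∈ chart A₀.toSubring (be x') :=
  Subring.mul_mem _ H.al_mem_chart_be (self_mem_chart _)

theorem LQ.chart_al_eq (H : LQ A₀ ϖ₀ q al be w γ Ow' V x') :
    chart A₀.toSubring (al x') = ch₁ A₀ al be x' :=
  le_antisymm (chart_le_chart H.al_mem_chart_xx) (chart_le_chart H.xx_mem_chart_al)

theorem LQ.chart_be_eq (H : LQ A₀ ϖ₀ q al be w γ Ow' V x') :
    chart A₀.toSubring (be x') = ch₁ A₀ al be x' :=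
  le_antisymm (chart_le_chart H.be_mem_chart_xx) (chart_le_chart H.xx_mem_chart_be)

theorem LQ.isMVert (H : LQ A₀ ϖ₀ q al be w γ Ow' V x') :
    IsMVert A₀ ϖ₀ V K₀⟮xx al be x'⟯ :=
  H.complete.change H.isMCoord_al H.al_mem_chart_xx H.xx_mem_chart_al

theorem LQ.isMCoord (H : LQ A₀ ϖ₀ q al be w γ Ow' V x') (c : Fin 2) :
    IsMCoord A₀ (V c) (xx al be x') :=
  IsMCoord.of_mem_chart H.complete.unif₀ (H.complete.const_mem c) (H.complete.lt_one c)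
    (H.isMCoord_al c) ((V c).mul_mem _ _ (H.isMCoord_al c).mem (H.isMCoord_be c).mem)
    H.al_mem_chart_xx

theorem LQ.w_xx (H : LQ A₀ ϖ₀ q al be w γ Ow' V x') : w (xx al be x') = xx al be x' := by
  rw [xx, map_mul, H.w_al, H.w_be, mul_comm]

theorem LQ.w_mem_ch₁ (H : LQ A₀ ϖ₀ q al be w γ Ow' V x') {y : F} (hy : y ∈ ch₁ A₀ al be x') :
    w y ∈ ch₁ A₀ al be x' := by
  have h := map_mem_chart_algEquiv w A₀.toSubring hy
  rwa [H.w_xx] at h

theorem LQ.w_mem_ch₂ (H : LQ A₀ ϖ₀ q al be w γ Ow' V x') {y : F} (hy : y ∈ ch₂ A₀ al be x') :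
    w y ∈ ch₂ A₀ al be x' := by
  have h := map_mem_chart_algEquiv w A₀.toSubring hy
  rwa [map_inv₀, H.w_xx] at h

theorem LQ.al_mem_ch₁ (H : LQ A₀ ϖ₀ q al be w γ Ow' V x') {r : F'}
    (hr : r ∈ chart A₀.toSubring x') : al r ∈ ch₁ A₀ al be x' := by
  rw [← H.chart_al_eq]
  exact map_mem_chart_algHom al A₀.toSubring hr

theorem LQ.be_mem_ch₁ (H : LQ A₀ ϖ₀ q al be w γ Ow' V x') {r : F'}
    (hr : r ∈ chart A₀.toSubring x') : be r ∈ ch₁ A₀ al be x' := by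
  rw [← H.chart_be_eq]
  exact map_mem_chart_algHom be A₀.toSubring hr

theorem LQ.xx_ne_zero (H : LQ A₀ ϖ₀ q al be w γ Ow' V x') : xx al be x' ≠ 0 :=
  (H.isMCoord 0).ne_zero

theorem LQ.al_mem_ch₂ (H : LQ A₀ ϖ₀ q al be w γ Ow' V x') {r : F'}
    (hr : r ∈ chart A₀.toSubring x'⁻¹) : al r ∈ ch₂ A₀ al be x' := by
  have h := map_mem_chart_algHom al A₀.toSubring hr
  rw [map_inv₀] at h
  exact chart_le_chart (inv_mem_chart_inv_mul H.xx_ne_zero H.be_mem_chart_al) h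

theorem LQ.be_mem_ch₂ (H : LQ A₀ ϖ₀ q al be w γ Ow' V x') {r : F'}
    (hr : r ∈ chart A₀.toSubring x'⁻¹) : be r ∈ ch₂ A₀ al be x' := by
  have h := map_mem_chart_algHom be A₀.toSubring hr
  rw [map_inv₀] at h
  have h0 : be x' * al x' ≠ 0 := by
    rw [mul_comm]; exact H.xx_ne_zero
  have h1 := inv_mem_chart_inv_mul h0 H.al_mem_chart_be
  rw [mul_comm] at h1
  exact chart_le_chart h1 h

/-- A ring endomorphism which preserves the constants `A₀` and fixes `z` preserves the chart. -/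
theorem map_mem_chart_ringHom (σ : F' →+* F') {z : F'}
    (hσA : ∀ a ∈ A₀, ∃ a' ∈ A₀, σ (algebraMap K₀ F' a) = algebraMap K₀ F' a') (hσz : σ z = z)
    {r : F'} (hr : r ∈ chart A₀.toSubring z) : σ r ∈ chart A₀.toSubring z := by
  have h1 : ∀ y ∈ polyRing A₀.toSubring z, σ y ∈ polyRing A₀.toSubring z := by
    intro y hy
    rw [mem_polyRing_iff] at hy
    obtain ⟨p, hp, rfl⟩ := hy
    rw [aeval_eq_sum_range, map_sum]
    refine Subring.sum_mem _ fun i _ => ?_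
    obtain ⟨a', ha', h2⟩ := hσA (p.coeff i) (hp i)
    rw [Algebra.smul_def, map_mul, map_pow, hσz, h2]
    exact Subring.mul_mem _ (Overlap.algebraMap_mem_polyRing _ _ ha')
      (Subring.pow_mem _ (Overlap.self_mem_polyRing _ _) _)
  rw [mem_chart_iff_isIntegral] at hr ⊢
  let τ : polyRing A₀.toSubring z →+* polyRing A₀.toSubring z :=
    (σ.comp (polyRing A₀.toSubring z).subtype).codRestrict (polyRing A₀.toSubring z)
      (fun y => h1 y.1 y.2)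
  exact IsIntegral.map_of_comp_eq τ σ (by ext c; rfl) hr

theorem LQ.γ_mem_chart₁ (H : LQ A₀ ϖ₀ q al be w γ Ow' V x') {r : F'}
    (hr : r ∈ chart A₀.toSubring x') : γ r ∈ chart A₀.toSubring x' :=
  map_mem_chart_ringHom γ H.γ_const H.γ_x hr

theorem LQ.γ_mem_chart₂ (H : LQ A₀ ϖ₀ q al be w γ Ow' V x') {r : F'}
    (hr : r ∈ chart A₀.toSubring x'⁻¹) : γ r ∈ chart A₀.toSubring x'⁻¹ :=
  map_mem_chart_ringHom γ H.γ_const (by rw [map_inv₀, H.γ_x]) hr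

theorem LQ.mem_ch₁_iff (H : LQ A₀ ϖ₀ q al be w γ Ow' V x') (z : F) :
    z ∈ ch₁ A₀ al be x' ↔ (∀ c, z ∈ V c) ∧ z ∈ chart (⊤ : Subring K₀) (xx al be x') :=
  mem_chart_iff H.isMVert H.isMCoord z

theorem LQ.mem_ch₂_iff (H : LQ A₀ ϖ₀ q al be w γ Ow' V x') (z : F) :
    z ∈ ch₂ A₀ al be x' ↔ (∀ c, z ∈ V c) ∧ z ∈ chart (⊤ : Subring K₀) (xx al be x')⁻¹ :=
  mem_chart_iff H.isMVert.inv (fun c => (H.isMCoord c).inv) z

end Basic

/-! ### direct corollaries of the `Abs` toolkit for the two charts -/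
section Api

theorem LQ.qep₁ (H : LQ A₀ ϖ₀ q al be w γ Ow' V x') (y : F)
    (h : algebraMap K₀ F ϖ₀ * y ∈ ch₁ A₀ al be x') (hy : ∀ c, y ∈ V c) : y ∈ ch₁ A₀ al be x' :=
  chart_qep H.isMVert H.isMCoord y h hy

theorem LQ.qep₂ (H : LQ A₀ ϖ₀ q al be w γ Ow' V x') (y : F)
    (h : algebraMap K₀ F ϖ₀ * y ∈ ch₂ A₀ al be x') (hy : ∀ c, y ∈ V c) : y ∈ ch₂ A₀ al be x' :=
  chart_qep H.isMVert.inv (fun c => (H.isMCoord c).inv) y h hy

theorem LQ.fin₁ [CharZero K₀] (H : LQ A₀ ϖ₀ q al be w γ Ow' V x') :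
    ∃ S : Finset F, (∀ e ∈ S, e ∈ ch₁ A₀ al be x') ∧
      ∀ b ∈ ch₁ A₀ al be x', b ∈ Submodule.span (A₀.toSubring.map (algebraMap K₀ F))
        {y : F | ∃ (a : ℕ) (e : F), e ∈ S ∧ y = xx al be x' ^ a * e} := by
  have := H.isMVert.finite
  exact chart_fin H.complete.unif₀ (H.isMCoord 0).transcendental

theorem LQ.fin₂ [CharZero K₀] (H : LQ A₀ ϖ₀ q al be w γ Ow' V x') :
    ∃ S : Finset F, (∀ e ∈ S, e ∈ ch₂ A₀ al be x') ∧
      ∀ b ∈ ch₂ A₀ al be x', b ∈ Submodule.span (A₀.toSubring.map (algebraMap K₀ F))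
        {y : F | ∃ (a : ℕ) (e : F), e ∈ S ∧ y = (xx al be x')⁻¹ ^ a * e} := by
  have := H.isMVert.inv.finite
  exact chart_fin H.complete.unif₀ (H.isMCoord 0).inv.transcendental

theorem LQ.noeth₁ [CharZero K₀] (H : LQ A₀ ϖ₀ q al be w γ Ow' V x') :
    IsNoetherianRing (ch₁ A₀ al be x') := by
  have := H.isMVert.finite
  exact chart_noeth H.complete.unif₀ (H.isMCoord 0).transcendental

theorem LQ.noeth₂ [CharZero K₀] (H : LQ A₀ ϖ₀ q al be w γ Ow' V x') :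
    IsNoetherianRing (ch₂ A₀ al be x') := by
  have := H.isMVert.inv.finite
  exact chart_noeth H.complete.unif₀ (H.isMCoord 0).inv.transcendental

theorem LQ.loc₁ (H : LQ A₀ ϖ₀ q al be w γ Ow' V x') (c : Fin 2) :
    ∀ y ∈ V c, ∃ s ∈ ch₁ A₀ al be x', (V c).valuation s = 1 ∧ s * y ∈ ch₁ A₀ al be x' :=
  chart_loc H.isMVert H.isMCoord H.sep (fun c => ⟨_, H.unif_all c⟩) c

theorem LQ.loc₂ (H : LQ A₀ ϖ₀ q al be w γ Ow' V x') (c : Fin 2) :
    ∀ y ∈ V c, ∃ s ∈ ch₂ A₀ al be x', (V c).valuation s = 1 ∧ s * y ∈ ch₂ A₀ al be x' :=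
  chart_loc H.isMVert.inv (fun c => (H.isMCoord c).inv) H.sep (fun c => ⟨_, H.unif_all c⟩) c

end Api

end Fermat.Agent.BAD.LevelQ
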