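/-
Project BAD, block LevelQ, section Nor of the hub (helper72): the two components of the model of
level `M q` are normal.
-/
import Fermat.Agent.BAD.LevelQ.Hub.Basic
import Fermat.Agent.BAD.LevelQ.Abs.Residue

set_option autoImplicit false

noncomputable section

namespace Fermat.Agent.BAD.LevelQ

open Polynomial IntermediateField Fermat.Agent.S18

/-- Abstract core: if `W` has residue degree one over `Ow'` (along `φ`), `B'` is a good chart of
`Ow'`, and `z ∈ W` is a root modulo `𝔪_W` of a monic polynomial whose coefficients are congruent to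
elements of `φ B'`, then `z` is congruent to an element of `φ B'`. -/
theorem nor_exists_congr {F' F : Type*} [Field F'] [Field F] {Ow' : ValuationSubring F'} {ϖ' : F'}
    {B' : Subring F'} (hU : IsUnif Ow' ϖ') (hC : IsChart Ow' ϖ' B') (φ : F' →+* F)
    (W : ValuationSubring F) (hφ : ∀ y', φ y' ∈ W ↔ y' ∈ Ow')
    (hdense : ∀ y ∈ W, ∃ y' ∈ Ow', W.valuation (y - φ y') < 1) {z : F} (hz : z ∈ W)
    (p : F[X]) (hp : p.Monic) (hpB : ∀ j, ∃ r ∈ B', W.valuation (p.coeff j - φ r) < 1)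
    (h : W.valuation (p.eval z) < 1) : ∃ b ∈ B', W.valuation (z - φ b) < 1 := by
  classical
  have hlt : ∀ t : F', W.valuation (φ t) < 1 ↔ Ow'.valuation t < 1 := by
    intro t
    rw [Residue.val_lt_one_iff, Residue.val_lt_one_iff, ← map_inv₀, hφ, map_eq_zero]
  choose r hrB hr using hpB
  obtain ⟨r0, hr0, hzr0⟩ := hdense z hz
  have hφr0 : φ r0 ∈ W := (hφ r0).2 hr0
  let P₀ : B'[X] := X ^ p.natDegree +
    ∑ j ∈ Finset.range p.natDegree, C (⟨r j, hrB j⟩ : B') * X ^ j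
  have hP₀ : P₀.Monic := by
    apply monic_X_pow_add
    refine lt_of_le_of_lt (degree_sum_le _ _) ?_
    rw [Finset.sup_lt_iff (WithBot.bot_lt_coe _)]
    intro j hj
    refine lt_of_le_of_lt (degree_C_mul_X_pow_le _ _) ?_
    exact_mod_cast Finset.mem_range.1 hj
  have hcoefW : ∀ j, p.coeff j ∈ W := by
    intro j
    have e : p.coeff j = (p.coeff j - φ (r j)) + φ (r j) := by ring
    rw [e]
    exact W.add_mem _ _ ((W.valuation_le_one_iff _).1 (hr j).le) ((hφ _).2 (hC.le _ (hrB j)))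
  have h1 : W.valuation (p.eval z - p.eval (φ r0)) < 1 :=
    Residue.val_eval_sub_lt_one W p hcoefW hz hφr0 hzr0
  have hev : p.eval (φ r0) - φ ((P₀.map B'.subtype).eval r0) =
      ∑ j ∈ Finset.range p.natDegree, (p.coeff j - φ (r j)) * (φ r0) ^ j := by
    rw [eval_eq_sum_range, Finset.sum_range_succ, hp.coeff_natDegree, one_mul]
    simp only [P₀, Polynomial.map_add, Polynomial.map_pow, map_X, Polynomial.map_sum,
      Polynomial.map_mul, map_C, eval_add, eval_pow, eval_X, eval_finsetSum, eval_mul, eval_C,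
      map_add, map_pow, map_sum, map_mul, Subring.subtype_apply, sub_mul, Finset.sum_sub_distrib]
    ring
  have h2 : W.valuation (p.eval (φ r0) - φ ((P₀.map B'.subtype).eval r0)) < 1 := by
    rw [hev]
    refine Valuation.map_sum_lt _ one_ne_zero fun j _ => ?_
    rw [map_mul, map_pow]
    calc W.valuation (p.coeff j - φ (r j)) * W.valuation (φ r0) ^ j
        ≤ W.valuation (p.coeff j - φ (r j)) * 1 :=
          mul_le_mul_right (pow_le_one' ((W.valuation_le_one_iff _).2 hφr0) j) _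
      _ < 1 := by rw [mul_one]; exact hr j
  have h3 : W.valuation (φ ((P₀.map B'.subtype).eval r0)) < 1 := by
    have e : φ ((P₀.map B'.subtype).eval r0) = p.eval z - (p.eval z - p.eval (φ r0)) -
        (p.eval (φ r0) - φ ((P₀.map B'.subtype).eval r0)) := by ring
    rw [e]
    exact Valuation.map_sub_lt _ (Valuation.map_sub_lt _ h h1) h2
  obtain ⟨b, hb, hb'⟩ := IsChart.exists_congr_of_integral hU hC hr0 (P₀.map B'.subtype)
    (hP₀.map _) (fun i => by rw [coeff_map]; exact (P₀.coeff i).2) ((hlt _).1 h3)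
  refine ⟨b, hb, ?_⟩
  have e : z - φ b = (z - φ r0) + φ (r0 - b) := by rw [map_sub]; ring
  rw [e]
  exact Valuation.map_add_lt _ hzr0 ((hlt _).2 hb')

variable {K₀ F' F : Type*} [Field K₀] [Field F'] [Field F] [Algebra K₀ F'] [Algebra K₀ F]
variable {A₀ : ValuationSubring K₀} {ϖ₀ : K₀} {q : ℕ} {al be : F' →ₐ[K₀] F} {w : F ≃ₐ[K₀] F}
  {γ : F' →+* F'} {Ow' : ValuationSubring F'} {V : Fin 2 → ValuationSubring F} {x' : F'}

section Nor

theorem nor_xx_comm (al be : F' →ₐ[K₀] F) (x' : F') : xx be al x' = xx al be x' := mul_comm _ _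

/-- residue degree one for `(v_0, β)` -/
theorem LQ.dense_one (H : LQ A₀ ϖ₀ q al be w γ Ow' V x') :
    ∀ y ∈ V 1, ∃ r ∈ Ow', (V 1).valuation (y - be r) < 1 := H.swap.dense

theorem LQ.kron_one (H : LQ A₀ ϖ₀ q al be w γ Ow' V x') :
    ∀ f ∈ Ow', (V 1).valuation (al f - be (γ f) ^ q) < 1 := H.swap.kron

/-- an element integral over a subring `R` of `F` is a root of a monic polynomial of `F[X]` with
coefficients in `R`. -/
theorem nor_exists_monic {R : Subring F} {y : F} (hy : IsIntegral R y) :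
    ∃ p : F[X], p.Monic ∧ (∀ j, p.coeff j ∈ R) ∧ p.eval y = 0 := by
  obtain ⟨P, hP, hPy⟩ := hy
  refine ⟨P.map R.subtype, hP.map _, fun j => by rw [coeff_map]; exact (P.coeff j).2, ?_⟩
  rw [eval_map]
  exact hPy

/-- The image of the chart `ch₁` in the residue field of `v_∞` is the image of `al B₁'`. -/
theorem LQ.nor₁ (H : LQ A₀ ϖ₀ q al be w γ Ow' V x') :
    ∀ y ∈ ch₁ A₀ al be x', ∃ r ∈ chart A₀.toSubring x', (V 0).valuation (y - al r) < 1 := by
  intro y hy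
  have hyV : y ∈ V 0 := ((H.mem_ch₁_iff y).1 hy).1 0
  rw [← H.chart_al_eq, mem_chart_iff_isIntegral] at hy
  obtain ⟨p, hp, hpc, hpy⟩ := nor_exists_monic hy
  refine nor_exists_congr H.vert'.unif H.chart₁' (al : F' →+* F) (V 0) H.comap_al H.dense hyV p hp
    (fun j => ?_) (by rw [hpy, map_zero]; exact zero_lt_one)
  obtain ⟨g, hg, hgj⟩ := (mem_polyRing_iff _ _ _).1 (hpc j)
  refine ⟨aeval x' g, polyRing_le_chart _ _ ((mem_polyRing_iff _ _ _).2 ⟨g, hg, rfl⟩), ?_⟩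
  rw [← hgj]
  have e : aeval (al x') g - (al : F' →+* F) (aeval x' g) = 0 := by
    rw [sub_eq_zero]
    exact aeval_algHom_apply al x' g
  rw [e, map_zero]
  exact zero_lt_one

/-- `x⁻¹ ≡ al (x'⁻¹ ^ (q + 1))` at `v_∞`. -/
theorem LQ.nor_val_xx_inv (H : LQ A₀ ϖ₀ q al be w γ Ow' V x') :
    (V 0).valuation ((xx al be x')⁻¹ - al (x'⁻¹ ^ (q + 1))) < 1 := by
  have ha := (H.isMCoord_al 0).valuation_eq_one
  have hb := (H.isMCoord_be 0).valuation_eq_one
  have ha0 := (H.isMCoord_al 0).ne_zero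
  have hb0 := (H.isMCoord_be 0).ne_zero
  have hk := H.kron x' H.coord'.mem
  rw [H.γ_x, Valuation.map_sub_swap] at hk
  have e : (xx al be x')⁻¹ - al (x'⁻¹ ^ (q + 1)) =
      (al x' ^ q - be x') * ((be x')⁻¹ * (al x')⁻¹ ^ (q + 1)) := by
    rw [map_pow, map_inv₀, inv_pow]
    show (al x' * be x')⁻¹ - (al x' ^ (q + 1))⁻¹ =
      (al x' ^ q - be x') * ((be x')⁻¹ * (al x' ^ (q + 1))⁻¹)
    have hq0 : al x' ^ q ≠ 0 := pow_ne_zero _ ha0
    rw [pow_succ]
    field_simp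
  rw [e, map_mul, map_mul, map_pow, map_inv₀, map_inv₀, ha, hb]
  simpa using hk

theorem LQ.nor₂ (H : LQ A₀ ϖ₀ q al be w γ Ow' V x') :
    ∀ y ∈ ch₂ A₀ al be x', ∃ r ∈ chart A₀.toSubring x'⁻¹, (V 0).valuation (y - al r) < 1 := by
  intro y hy
  have hyV : y ∈ V 0 := ((H.mem_ch₂_iff y).1 hy).1 0
  rw [mem_chart_iff_isIntegral] at hy
  obtain ⟨p, hp, hpc, hpy⟩ := nor_exists_monic hy
  refine nor_exists_congr H.vert'.unif H.chart₂' (al : F' →+* F) (V 0) H.comap_al H.dense hyV p hp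
    (fun j => ?_) (by rw [hpy, map_zero]; exact zero_lt_one)
  obtain ⟨g, hg, hgj⟩ := (mem_polyRing_iff _ _ _).1 (hpc j)
  have hconst : ∀ a ∈ A₀, algebraMap K₀ F a ∈ V 0 := H.complete.const_mem 0
  refine ⟨aeval (x'⁻¹ ^ (q + 1)) g, ?_, ?_⟩
  · rw [mem_chart_iff_forall_valuationSubring]
    intro W hW hx
    exact change_aeval_mem A₀ W hW (W.pow_mem hx _) hg
  · rw [← hgj]
    have e : (al : F' →+* F) (aeval (x'⁻¹ ^ (q + 1)) g) = aeval (al (x'⁻¹ ^ (q + 1))) g :=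
      (aeval_algHom_apply al _ g).symm
    rw [e, aeval_def, aeval_def, ← eval_map, ← eval_map]
    have hxinv : (xx al be x')⁻¹ ∈ V 0 := (H.isMCoord 0).inv.mem
    have halu : al (x'⁻¹ ^ (q + 1)) ∈ V 0 := by
      rw [map_pow, map_inv₀]
      exact (V 0).pow_mem (H.isMCoord_al 0).inv.mem _
    refine Residue.val_eval_sub_lt_one (V 0) _ (fun i => ?_) hxinv halu H.nor_val_xx_inv
    rw [coeff_map]
    exact hconst _ (hg i)

theorem LQ.nor₁_one (H : LQ A₀ ϖ₀ q al be w γ Ow' V x') :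
    ∀ y ∈ ch₁ A₀ al be x', ∃ r ∈ chart A₀.toSubring x', (V 1).valuation (y - be r) < 1 := by
  intro y hy
  have hy' : y ∈ ch₁ A₀ be al x' := by
    rw [ch₁, nor_xx_comm]
    exact hy
  exact H.swap.nor₁ y hy'

theorem LQ.nor₂_one (H : LQ A₀ ϖ₀ q al be w γ Ow' V x') :
    ∀ y ∈ ch₂ A₀ al be x', ∃ r ∈ chart A₀.toSubring x'⁻¹, (V 1).valuation (y - be r) < 1 := by
  intro y hy
  have hy' : y ∈ ch₂ A₀ be al x' := by
    rw [ch₂, nor_xx_comm]
    exact hy
  exact H.swap.nor₂ y hy'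

theorem LQ.nor_closed₁_zero (H : LQ A₀ ϖ₀ q al be w γ Ow' V x') :
    ∀ z ∈ V 0, ∀ p : F[X], p.Monic → (∀ j, p.coeff j ∈ ch₁ A₀ al be x') →
      (V 0).valuation (p.eval z) < 1 → ∃ f ∈ ch₁ A₀ al be x', (V 0).valuation (z - f) < 1 := by
  intro z hz p hp hpc hpz
  obtain ⟨b, hb, hzb⟩ := nor_exists_congr H.vert'.unif H.chart₁' (al : F' →+* F) (V 0) H.comap_al
    H.dense hz p hp (fun j => H.nor₁ _ (hpc j)) hpz
  exact ⟨al b, H.al_mem_ch₁ hb, hzb⟩

theorem LQ.nor_closed₂_zero (H : LQ A₀ ϖ₀ q al be w γ Ow' V x') :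
    ∀ z ∈ V 0, ∀ p : F[X], p.Monic → (∀ j, p.coeff j ∈ ch₂ A₀ al be x') →
      (V 0).valuation (p.eval z) < 1 → ∃ f ∈ ch₂ A₀ al be x', (V 0).valuation (z - f) < 1 := by
  intro z hz p hp hpc hpz
  obtain ⟨b, hb, hzb⟩ := nor_exists_congr H.vert'.unif H.chart₂' (al : F' →+* F) (V 0) H.comap_al
    H.dense hz p hp (fun j => H.nor₂ _ (hpc j)) hpz
  exact ⟨al b, H.al_mem_ch₂ hb, hzb⟩

/-- The image of `ch₁` in the residue field of `V c` is integrally closed. -/
theorem LQ.nor_closed₁ (H : LQ A₀ ϖ₀ q al be w γ Ow' V x') (c : Fin 2) :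
    ∀ z ∈ V c, ∀ p : F[X], p.Monic → (∀ j, p.coeff j ∈ ch₁ A₀ al be x') →
      (V c).valuation (p.eval z) < 1 → ∃ f ∈ ch₁ A₀ al be x', (V c).valuation (z - f) < 1 := by
  fin_cases c
  · exact H.nor_closed₁_zero
  · have h := H.swap.nor_closed₁_zero
    rw [ch₁, nor_xx_comm] at h
    exact h

theorem LQ.nor_closed₂ (H : LQ A₀ ϖ₀ q al be w γ Ow' V x') (c : Fin 2) :
    ∀ z ∈ V c, ∀ p : F[X], p.Monic → (∀ j, p.coeff j ∈ ch₂ A₀ al be x') →
      (V c).valuation (p.eval z) < 1 → ∃ f ∈ ch₂ A₀ al be x', (V c).valuation (z - f) < 1 := by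
  fin_cases c
  · exact H.nor_closed₂_zero
  · have h := H.swap.nor_closed₂_zero
    rw [ch₂, nor_xx_comm] at h
    exact h

end Nor

end Fermat.Agent.BAD.LevelQ
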