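/-
Project BAD, block LevelQ (owner helper39), section Rad of the hub skeleton (proofs: helper129):
the two components of the special fibre cross transversally, i.e. the image in one component of the
ideal of the other one is radical.  Kronecker's congruence + surjectivity of Frobenius.
-/
import Fermat.Agent.BAD.LevelQ.Hub.Sym
import Fermat.Agent.BAD.LevelQ.Hub.Basic
import Fermat.Agent.BAD.LevelQ.Hub.Nor

set_option autoImplicit false

noncomputable section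

namespace Fermat.Agent.BAD.LevelQ

open Polynomial IntermediateField Fermat.Agent.S18

variable {K₀ F' F : Type*} [Field K₀] [Field F'] [Field F] [Algebra K₀ F'] [Algebra K₀ F]
variable {A₀ : ValuationSubring K₀} {ϖ₀ : K₀} {q : ℕ} {al be : F' →ₐ[K₀] F} {w : F ≃ₐ[K₀] F}
  {γ : F' →+* F'} {Ow' : ValuationSubring F'} {V : Fin 2 → ValuationSubring F} {x' : F'}

section Rad

/-- Mathlib only. -/
theorem isRadical_of_forall_exists_pow {R : Type*} [CommRing R] [IsNoetherianRing R] (I : Ideal R)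
    (Q : ℕ) (hQ : 2 ≤ Q) (h : ∀ f : R, ∃ g : R, f - g ^ Q ∈ I) : I.IsRadical := by
  obtain ⟨s, hs⟩ := Ideal.exists_radical_pow_le_of_fg I (IsNoetherian.noetherian _)
  have key : ∀ r : ℕ, ∀ f ∈ I.radical, ∃ g ∈ I.radical, f - g ^ (Q ^ r) ∈ I := by
    intro r
    induction r with
    | zero =>
      intro f hf
      exact ⟨f, hf, by simp⟩
    | succ r ih =>
      intro f hf
      obtain ⟨g, hg, hfg⟩ := ih f hf
      obtain ⟨g', hg'⟩ := h g
      have hpow : g' ^ Q ∈ I.radical := by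
        have := I.radical.sub_mem hg (Ideal.le_radical hg')
        simpa using this
      have hg'r : g' ∈ I.radical := by
        rw [← Ideal.radical_idem]
        exact ⟨Q, hpow⟩
      refine ⟨g', hg'r, ?_⟩
      have h1 : g ^ (Q ^ r) - (g' ^ Q) ^ (Q ^ r) ∈ I :=
        I.mem_of_dvd (sub_dvd_pow_sub_pow g (g' ^ Q) (Q ^ r)) hg'
      have h2 := I.add_mem hfg h1
      have e : f - g ^ Q ^ r + (g ^ Q ^ r - (g' ^ Q) ^ Q ^ r) = f - g' ^ Q ^ (r + 1) := by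
        rw [← pow_mul, pow_succ' Q r]
        ring
      rwa [e] at h2
  intro f hf
  obtain ⟨g, hg, hfg⟩ := key s f hf
  have hle : s ≤ Q ^ s := (Nat.lt_pow_self (by omega)).le
  have hg' : g ^ (Q ^ s) ∈ I := hs (Ideal.pow_le_pow_right hle (Ideal.pow_mem_pow hg _))
  have := I.add_mem hfg hg'
  simpa using this

/-- `a ≡ b` implies `a ^ n ≡ b ^ n` modulo the maximal ideal of a valuation ring. -/
theorem Rad.val_pow_sub_pow_lt {L : Type*} [Field L] (W : ValuationSubring L) {a b : L}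
    (ha : a ∈ W) (hb : b ∈ W) (h : W.valuation (a - b) < 1) (n : ℕ) :
    W.valuation (a ^ n - b ^ n) < 1 := by
  obtain ⟨c, hc⟩ := sub_dvd_pow_sub_pow (⟨a, ha⟩ : W) ⟨b, hb⟩ n
  have e : a ^ n - b ^ n = (a - b) * (c : L) := congrArg Subtype.val hc
  rw [e, map_mul]
  exact lt_of_le_of_lt (mul_le_of_le_one_right' (W.valuation_le_one c)) h

/-- multiplication by an integral element preserves the maximal ideal -/
theorem Rad.val_mul_lt {L : Type*} [Field L] (W : ValuationSubring L) {a b : L}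
    (ha : a ∈ W) (h : W.valuation b < 1) : W.valuation (a * b) < 1 := by
  rw [map_mul]
  exact lt_of_le_of_lt (mul_le_of_le_one_left' ((W.valuation_le_one_iff a).2 ha)) h

/-- The abstract form of the radical statement. -/
theorem Rad.abstract {L' L : Type*} [Field L'] [Field L] (φ : L' →+* L)
    (W₀ W₁ : ValuationSubring L) (B' : Subring L') (B : Subring L) (hN : IsNoetherianRing B')
    (Q : ℕ) (hQ : 2 ≤ Q) (hφ : ∀ r ∈ B', φ r ∈ B) (h₀ : ∀ y ∈ B, y ∈ W₀) (h₁ : ∀ y ∈ B, y ∈ W₁)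
    (hgen : ∀ f ∈ B', ∃ g ∈ B', ∃ y ∈ B, W₁.valuation y < 1 ∧
      W₀.valuation (y - φ (f - g ^ Q)) < 1)
    (hnor : ∀ y ∈ B, ∃ r ∈ B', W₀.valuation (y - φ r) < 1) :
    ∀ f ∈ B, ∀ m : ℕ, (∃ g ∈ B, W₁.valuation g < 1 ∧ W₀.valuation (f ^ m - g) < 1) →
      ∃ g ∈ B, W₁.valuation g < 1 ∧ W₀.valuation (f - g) < 1 := by
  let I : Ideal B' :=
    { carrier := {r | ∃ g ∈ B, W₁.valuation g < 1 ∧ W₀.valuation (φ (r : L') - g) < 1}
      zero_mem' := ⟨0, B.zero_mem, by simp, by simp⟩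
      add_mem' := by
        rintro a b ⟨g, hg, hg1, hg0⟩ ⟨g', hg', hg1', hg0'⟩
        refine ⟨g + g', B.add_mem hg hg', Valuation.map_add_lt _ hg1 hg1', ?_⟩
        have e : φ ((a + b : B') : L') - (g + g') = (φ (a : L') - g) + (φ (b : L') - g') := by
          rw [Subring.coe_add, map_add]
          ring
        rw [e]
        exact Valuation.map_add_lt _ hg0 hg0'
      smul_mem' := by
        rintro s a ⟨g, hg, hg1, hg0⟩
        have hs : φ (s : L') ∈ B := hφ _ s.2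
        refine ⟨φ (s : L') * g, B.mul_mem hs hg, Rad.val_mul_lt W₁ (h₁ _ hs) hg1, ?_⟩
        have e : φ ((s • a : B') : L') - φ (s : L') * g = φ (s : L') * (φ (a : L') - g) := by
          rw [smul_eq_mul, Subring.coe_mul, map_mul]
          ring
        rw [e]
        exact Rad.val_mul_lt W₀ (h₀ _ hs) hg0 }
  have hI : I.IsRadical := by
    refine isRadical_of_forall_exists_pow I Q hQ ?_
    intro f
    obtain ⟨g, hg, y, hy, hy1, hy0⟩ := hgen f f.2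
    refine ⟨⟨g, hg⟩, y, hy, hy1, ?_⟩
    rw [Valuation.map_sub_swap]
    exact hy0
  intro f hf m ⟨g, hg, hg1, hg0⟩
  obtain ⟨r, hr, hfr⟩ := hnor f hf
  have hrm : (⟨r, hr⟩ : B') ^ m ∈ I := by
    refine ⟨g, hg, hg1, ?_⟩
    have e : φ (((⟨r, hr⟩ : B') ^ m : B') : L') - g = (φ r ^ m - f ^ m) + (f ^ m - g) := by
      rw [SubmonoidClass.coe_pow, map_pow]
      ring
    rw [e]
    refine Valuation.map_add_lt _ (Rad.val_pow_sub_pow_lt W₀ (h₀ _ (hφ r hr)) (h₀ _ hf) ?_ m) hg0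
    rw [Valuation.map_sub_swap]
    exact hfr
  obtain ⟨g', hg', hg1', hg0'⟩ := hI ⟨m, hrm⟩
  refine ⟨g', hg', hg1', ?_⟩
  have e : f - g' = (f - φ r) + (φ r - g') := by ring
  rw [e]
  exact Valuation.map_add_lt _ hfr hg0'

/-- The generator `α f - (β γ f) ^ q` of the ideal of the component `V 1`. -/
theorem LQ.gen_aux (H : LQ A₀ ϖ₀ q al be w γ Ow' V x') {f : F'} (hf : f ∈ Ow') :
    (V 1).valuation (al f - be (γ f) ^ q) < 1 ∧
      (V 0).valuation ((al f - be (γ f) ^ q) - al (f - γ (γ f) ^ (q ^ 2))) < 1 := by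
  refine ⟨H.kron_one f hf, ?_⟩
  have hγ : γ f ∈ Ow' := H.γ_mem f hf
  have hγγ : γ (γ f) ∈ Ow' := H.γ_mem _ hγ
  have e : (al f - be (γ f) ^ q) - al (f - γ (γ f) ^ (q ^ 2)) =
      (al (γ (γ f)) ^ q) ^ q - be (γ f) ^ q := by
    rw [map_sub, map_pow, pow_two, pow_mul]
    ring
  rw [e]
  refine Rad.val_pow_sub_pow_lt (V 0) ((V 0).pow_mem ((H.comap_al _).2 hγγ) _)
    ((H.comap_be _).2 hγ) ?_ q
  rw [Valuation.map_sub_swap]
  exact H.kron _ hγ

theorem LQ.gen₁ (H : LQ A₀ ϖ₀ q al be w γ Ow' V x') :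
    ∀ f ∈ chart A₀.toSubring x', ∃ y ∈ ch₁ A₀ al be x', (V 1).valuation y < 1 ∧
      (V 0).valuation (y - al (f - γ (γ f) ^ (q ^ 2))) < 1 := by
  intro f hf
  obtain ⟨h1, h0⟩ := H.gen_aux (H.chart₁'.le f hf)
  exact ⟨al f - be (γ f) ^ q, Subring.sub_mem _ (H.al_mem_ch₁ hf)
    (Subring.pow_mem _ (H.be_mem_ch₁ (H.γ_mem_chart₁ hf)) _), h1, h0⟩

theorem LQ.gen₂ (H : LQ A₀ ϖ₀ q al be w γ Ow' V x') :
    ∀ f ∈ chart A₀.toSubring x'⁻¹, ∃ y ∈ ch₂ A₀ al be x', (V 1).valuation y < 1 ∧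
      (V 0).valuation (y - al (f - γ (γ f) ^ (q ^ 2))) < 1 := by
  intro f hf
  obtain ⟨h1, h0⟩ := H.gen_aux (H.chart₂'.le f hf)
  exact ⟨al f - be (γ f) ^ q, Subring.sub_mem _ (H.al_mem_ch₂ hf)
    (Subring.pow_mem _ (H.be_mem_ch₂ (H.γ_mem_chart₂ hf)) _), h1, h0⟩

theorem LQ.two_le_sq (H : LQ A₀ ϖ₀ q al be w γ Ow' V x') : 2 ≤ q ^ 2 := by
  have := H.prime.two_le
  nlinarith

theorem LQ.rad₁_aux (H : LQ A₀ ϖ₀ q al be w γ Ow' V x') :
    ∀ f ∈ ch₁ A₀ al be x', ∀ m : ℕ,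
      (∃ g ∈ ch₁ A₀ al be x', (V 1).valuation g < 1 ∧ (V 0).valuation (f ^ m - g) < 1) →
      ∃ g ∈ ch₁ A₀ al be x', (V 1).valuation g < 1 ∧ (V 0).valuation (f - g) < 1 :=
  Rad.abstract (al : F' →+* F) (V 0) (V 1) (chart A₀.toSubring x') (ch₁ A₀ al be x')
    H.chart₁'.noeth (q ^ 2) H.two_le_sq (fun _ hr => H.al_mem_ch₁ hr)
    (fun y hy => ((H.mem_ch₁_iff y).1 hy).1 0) (fun y hy => ((H.mem_ch₁_iff y).1 hy).1 1)
    (fun f hf => ⟨γ (γ f), H.γ_mem_chart₁ (H.γ_mem_chart₁ hf), H.gen₁ f hf⟩) H.nor₁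

theorem LQ.rad₂_aux (H : LQ A₀ ϖ₀ q al be w γ Ow' V x') :
    ∀ f ∈ ch₂ A₀ al be x', ∀ m : ℕ,
      (∃ g ∈ ch₂ A₀ al be x', (V 1).valuation g < 1 ∧ (V 0).valuation (f ^ m - g) < 1) →
      ∃ g ∈ ch₂ A₀ al be x', (V 1).valuation g < 1 ∧ (V 0).valuation (f - g) < 1 :=
  Rad.abstract (al : F' →+* F) (V 0) (V 1) (chart A₀.toSubring x'⁻¹) (ch₂ A₀ al be x')
    H.chart₂'.noeth (q ^ 2) H.two_le_sq (fun _ hr => H.al_mem_ch₂ hr)
    (fun y hy => ((H.mem_ch₂_iff y).1 hy).1 0) (fun y hy => ((H.mem_ch₂_iff y).1 hy).1 1)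
    (fun f hf => ⟨γ (γ f), H.γ_mem_chart₂ (H.γ_mem_chart₂ hf), H.gen₂ f hf⟩) H.nor₂

theorem Rad.xx_comm (al be : F' →ₐ[K₀] F) (x' : F') : xx be al x' = xx al be x' := mul_comm _ _

/-- The image in the component `V c` of the ideal of the other component `V c'` is radical. -/
theorem LQ.rad₁ (H : LQ A₀ ϖ₀ q al be w γ Ow' V x') (c c' : Fin 2) (hc : c ≠ c') :
    ∀ f ∈ ch₁ A₀ al be x', ∀ m : ℕ,
      (∃ g ∈ ch₁ A₀ al be x', (V c').valuation g < 1 ∧ (V c).valuation (f ^ m - g) < 1) →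
      ∃ g ∈ ch₁ A₀ al be x', (V c').valuation g < 1 ∧ (V c).valuation (f - g) < 1 := by
  have h10 := H.swap.rad₁_aux
  rw [ch₁, Rad.xx_comm] at h10
  fin_cases c <;> fin_cases c'
  · exact absurd rfl hc
  · exact H.rad₁_aux
  · exact h10
  · exact absurd rfl hc

theorem LQ.rad₂ (H : LQ A₀ ϖ₀ q al be w γ Ow' V x') (c c' : Fin 2) (hc : c ≠ c') :
    ∀ f ∈ ch₂ A₀ al be x', ∀ m : ℕ,
      (∃ g ∈ ch₂ A₀ al be x', (V c').valuation g < 1 ∧ (V c).valuation (f ^ m - g) < 1) →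
      ∃ g ∈ ch₂ A₀ al be x', (V c').valuation g < 1 ∧ (V c).valuation (f - g) < 1 := by
  have h10 := H.swap.rad₂_aux
  rw [ch₂, Rad.xx_comm] at h10
  fin_cases c <;> fin_cases c'
  · exact absurd rfl hc
  · exact H.rad₂_aux
  · exact h10
  · exact absurd rfl hc

end Rad

end Fermat.Agent.BAD.LevelQ
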