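/-
Project BAD, block LevelQ (owner helper39), task LQH-VERT, abstract part: a valuation ring
containing the intersection of finitely many (separated) discrete valuation rings contains one of
them; the list of the vertical valuation rings is complete.
-/
import Mathlib
import Fermat.Agent.S18.Defs
import Fermat.Agent.S18.Chart.Unif
import Fermat.Agent.BAD.LevelQ.Defs
import Fermat.Agent.BAD.LevelQ.Abs.Two
import Fermat.Agent.BAD.LevelQ.Abs.Coord
import Fermat.Agent.BAD.LevelQ.Abs.Change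

set_option autoImplicit false

noncomputable section

namespace Fermat.Agent.BAD.LevelQ

open Polynomial IntermediateField Fermat.Agent.S18

variable {K₀ F : Type*} [Field K₀] [Field F] [Algebra K₀ F]

namespace VertAux

open Two

/-- the elements `eps c`: integral everywhere, unit at `V c`, non-unit at the other `V c'`. -/
theorem exists_eps {ι : Type*} [Finite ι] (V : ι → ValuationSubring F) (hsep : IsSep V) :
    ∃ eps : ι → F, (∀ c d, eps c ∈ V d) ∧ (∀ c, (V c).valuation (eps c) = 1) ∧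
      ∀ c c', c ≠ c' → (V c').valuation (eps c) < 1 := by
  classical
  have := Fintype.ofFinite ι
  choose e he1 he2 he3 using hsep
  let e' : ι → ι → F := fun c c' => if h : c ≠ c' then e c c' h else 1
  have h1 : ∀ c c' d, e' c c' ∈ V d := by
    intro c c' d
    by_cases h : c ≠ c'
    · simp only [e', dif_pos h]; exact he1 c c' h d
    · simp only [e', dif_neg h]; exact (V d).one_mem
  have h2 : ∀ c c', (V c).valuation (e' c c') = 1 := by
    intro c c'
    by_cases h : c ≠ c'
    · simp only [e', dif_pos h]; exact he2 c c' h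
    · simp only [e', dif_neg h]; exact map_one _
  have h3 : ∀ c c', c ≠ c' → (V c').valuation (e' c c') < 1 := by
    intro c c' h
    simp only [e', dif_pos h]; exact he3 c c' h
  refine ⟨fun c => ∏ c', e' c c', fun c d => ?_, fun c => ?_, fun c c' h => ?_⟩
  · exact (V d).toSubring.prod_mem fun c' _ => h1 c c' d
  · show (V c).valuation (∏ d, e' c d) = 1
    rw [map_prod]
    exact Finset.prod_eq_one fun c' _ => h2 c c'
  · show (V c').valuation (∏ d, e' c d) < 1
    rw [← Finset.mul_prod_erase Finset.univ _ (Finset.mem_univ c'), mul_comm]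
    exact lt_one_mul ((V c').toSubring.prod_mem fun d _ => h1 c d c') (h3 c c' h)

/-- clearing the denominators at the other valuations. -/
theorem exists_mul_pow_mem_all {ι : Type*} [Finite ι] (V : ι → ValuationSubring F) (ϖ : F)
    (hU : ∀ c, IsUnif (V c) ϖ) {c : ι} {ε : F} (h1 : ∀ d, ε ∈ V d)
    (h3 : ∀ c', c ≠ c' → (V c').valuation ε < 1) {y : F} (hy : y ∈ V c) :
    ∃ n : ℕ, ∀ d, y * ε ^ n ∈ V d := by
  classical
  have := Fintype.ofFinite ι
  have key : ∀ d, ∃ r : ℕ, ∀ n, r ≤ n → y * ε ^ n ∈ V d := by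
    intro d
    by_cases hd : c = d
    · subst hd
      exact ⟨0, fun n _ => (V c).mul_mem _ _ hy ((V c).pow_mem (h1 c) n)⟩
    · obtain ⟨r, hr⟩ := exists_mul_pow_mem (hU d) (h3 d hd) y
      refine ⟨r, fun n hn => ?_⟩
      obtain ⟨k, rfl⟩ := Nat.exists_eq_add_of_le hn
      rw [pow_add, ← mul_assoc]
      exact (V d).mul_mem _ _ hr ((V d).pow_mem (h1 d) k)
  choose r hr using key
  exact ⟨Finset.univ.sup r, fun d => hr d _ (Finset.le_sup (Finset.mem_univ d))⟩

theorem inv_mem_of_val_eq_one {W : ValuationSubring F} {t : F} (h : W.valuation t = 1) :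
    t⁻¹ ∈ W := by
  rw [← W.valuation_le_one_iff, map_inv₀, h, inv_one]

theorem ne_zero_of_val_eq_one {W : ValuationSubring F} {t : F} (h : W.valuation t = 1) :
    t ≠ 0 := by
  rintro rfl
  rw [map_zero] at h
  exact zero_ne_one h

end VertAux

open VertAux Two

/-- Abstract version: a valuation ring containing `⋂ V c` contains one of the `V c`. -/
theorem exists_le_of_iInf_le {ι : Type*} [Finite ι] [Nonempty ι] (V : ι → ValuationSubring F)
    (hsep : IsSep V) (ϖ : F) (hU : ∀ c, IsUnif (V c) ϖ)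
    (W : ValuationSubring F) (h : ∀ y : F, (∀ c, y ∈ V c) → y ∈ W) : ∃ c, V c ≤ W := by
  classical
  have := Fintype.ofFinite ι
  obtain ⟨eps, h1, h2, h3⟩ := exists_eps V hsep
  -- the claim
  have claim : ∃ c, ∀ s : F, (∀ d, s ∈ V d) → (V c).valuation s = 1 → s⁻¹ ∈ W := by
    by_contra hcon
    push Not at hcon
    choose s hs1 hs2 hs3 using hcon
    have hsW : ∀ c, W.valuation (s c) < 1 := fun c =>
      (change_val_lt_one_iff W (s c)).2 (Or.inr (hs3 c))
    set t : F := ∑ c, s c * eps c with ht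
    have htW : W.valuation t < 1 := by
      refine Valuation.map_sum_lt _ one_ne_zero fun c _ => ?_
      rw [mul_comm]
      exact lt_one_mul (h _ (h1 c)) (hsW c)
    have htV : ∀ d, (V d).valuation t = 1 := by
      intro d
      have e : t = ∑ c ∈ Finset.univ.erase d, s c * eps c + s d * eps d := by
        rw [ht, Finset.sum_erase_add _ _ (Finset.mem_univ d)]
      have hu : (V d).valuation (s d * eps d) = 1 := by rw [map_mul, hs2, h2, one_mul]
      have hlt : (V d).valuation (∑ c ∈ Finset.univ.erase d, s c * eps c) < 1 := by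
        refine Valuation.map_sum_lt _ one_ne_zero fun c hc => ?_
        exact lt_one_mul (hs1 c d) (h3 c d (Finset.ne_of_mem_erase hc))
      rw [e, Valuation.map_add_eq_of_lt_right _ (by rw [hu]; exact hlt), hu]
    have htinv : t⁻¹ ∈ W := h _ fun d => inv_mem_of_val_eq_one (htV d)
    obtain ⟨d⟩ := ‹Nonempty ι›
    rcases (change_val_lt_one_iff W t).1 htW with h0 | h0
    · exact ne_zero_of_val_eq_one (htV d) h0
    · exact h0 htinv
  obtain ⟨c, hc⟩ := claim
  refine ⟨c, fun y hy => ?_⟩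
  obtain ⟨n, hn⟩ := exists_mul_pow_mem_all V ϖ hU (h1 c) (h3 c) hy
  have h4 : (eps c ^ n)⁻¹ ∈ W :=
    hc _ (fun d => (V d).pow_mem (h1 c d) n) (by rw [map_pow, h2, one_pow])
  have h5 : eps c ^ n ≠ 0 := pow_ne_zero _ (ne_zero_of_val_eq_one (h2 c))
  have e : y = y * eps c ^ n * (eps c ^ n)⁻¹ := by
    rw [mul_assoc, mul_inv_cancel₀ h5, mul_one]
  rw [e]
  exact W.mul_mem _ _ (h _ hn) h4

/-- The list `V` of the vertical valuation rings is complete (abstract form of
`LQ.eq_of_vertical`). -/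
theorem eq_of_vertical_abs {ι : Type*} [Finite ι] [Nonempty ι] {A₀ : ValuationSubring K₀}
    {ϖ₀ : K₀} (V : ι → ValuationSubring F) {x : F} (hsep : IsSep V)
    (hV : IsMVert A₀ ϖ₀ V K₀⟮x⟯) (hx : ∀ c, IsMCoord A₀ (V c) x)
    (hU : ∀ c, IsUnif (V c) (algebraMap K₀ F ϖ₀)) (W : ValuationSubring F)
    (hW : IsMCoord A₀ W x) (hc : ∀ a ∈ A₀, algebraMap K₀ F a ∈ W)
    (hϖ : W.valuation (algebraMap K₀ F ϖ₀) < 1) : ∃ c, W = V c := by
  obtain ⟨c₀⟩ := ‹Nonempty ι›
  have : Nonempty ι := ⟨c₀⟩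
  have h : ∀ y : F, (∀ c, y ∈ V c) → y ∈ W := by
    intro y hy
    obtain ⟨p, hp, hpc, hpy⟩ := hV.integral y hy
    refine change_mem_of_monic W p hp (fun i => ?_) hpy
    obtain ⟨p0, d, hp0, hd, hd1, e⟩ := (hx c₀).exists_frac hV.unif₀ (hV.const_mem c₀)
      (hV.lt_one c₀) (p.coeff i).2 (hpc i c₀)
    have h1 : W.valuation (aeval x d) = 1 := hW.valuation_aeval_eq_one hc hd hd1
    have h2 : aeval x p0 ∈ W := CoordAux.aeval_mem hW.mem hc hp0
    have e' : algebraMap K₀⟮x⟯ F (p.coeff i) = aeval x p0 * (aeval x d)⁻¹ := by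
      rw [← e, mul_assoc, mul_inv_cancel₀ (ne_zero_of_val_eq_one h1), mul_one]
      rfl
    rw [e']
    exact W.mul_mem _ _ h2 (inv_mem_of_val_eq_one h1)
  obtain ⟨c, hcW⟩ := exists_le_of_iInf_le V hsep _ hU W h
  refine ⟨c, le_antisymm (fun y hy => ?_) hcW⟩
  by_contra hyV
  have hy0 : y ≠ 0 := by
    rintro rfl
    exact hyV (V c).zero_mem
  have hϖ0 : algebraMap K₀ F ϖ₀ ≠ 0 := (hU c).ne_zero
  obtain ⟨n, hu, hu'⟩ := (hU c).exists_zpow y hy0
  have hn : n < 0 := by
    by_contra hn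
    rw [not_lt] at hn
    apply hyV
    have e : y = y / algebraMap K₀ F ϖ₀ ^ n * algebraMap K₀ F ϖ₀ ^ n := by
      rw [div_mul_cancel₀ _ (zpow_ne_zero _ hϖ0)]
    rw [e]
    exact (V c).mul_mem _ _ hu ((hU c).zpow_mem hn)
  have h3 : algebraMap K₀ F ϖ₀ ^ n ∈ W := by
    have e : algebraMap K₀ F ϖ₀ ^ n = y * (y / algebraMap K₀ F ϖ₀ ^ n)⁻¹ := by
      rw [inv_div, mul_div_assoc', mul_comm, mul_div_assoc, div_self hy0, mul_one]
    rw [e]
    exact W.mul_mem _ _ hy (hcW hu')
  have h4 := (W.valuation_le_one_iff _).2 h3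
  rw [map_zpow₀] at h4
  have h5 : 0 < W.valuation (algebraMap K₀ F ϖ₀) := zero_lt_iff.2 ((_root_.map_ne_zero _).2 hϖ0)
  exact absurd h4 (not_le.2 (one_lt_zpow_of_neg₀ h5 hϖ hn))

end Fermat.Agent.BAD.LevelQ
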