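/-
Project BAD, block LevelQ (owner helper39), task LQH-VERT: the list `{v_∞, v_0}` of the vertical
valuations of the hub `LQ` is complete.  (`exists_le_of_iInf_le` and the abstract form
`eq_of_vertical_abs` are in `Hub/VertAbs.lean`.)
-/
import Fermat.Agent.BAD.LevelQ.Hub.VertAbs
import Fermat.Agent.BAD.LevelQ.Hub.Basic

set_option autoImplicit false

noncomputable section

namespace Fermat.Agent.BAD.LevelQ

open Polynomial IntermediateField Fermat.Agent.S18

variable {K₀ F' F : Type*} [Field K₀] [Field F'] [Field F] [Algebra K₀ F'] [Algebra K₀ F]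
variable {A₀ : ValuationSubring K₀} {ϖ₀ : K₀} {q : ℕ} {al be : F' →ₐ[K₀] F} {w : F ≃ₐ[K₀] F}
  {γ : F' →+* F'} {Ow' : ValuationSubring F'} {V : Fin 2 → ValuationSubring F} {x' : F'}

theorem LQ.eq_of_vertical (H : LQ A₀ ϖ₀ q al be w γ Ow' V x') (W : ValuationSubring F)
    (hW : IsMCoord A₀ W (xx al be x')) (hc : ∀ a ∈ A₀, algebraMap K₀ F a ∈ W)
    (hϖ : W.valuation (algebraMap K₀ F ϖ₀) < 1) : ∃ c, W = V c :=
  eq_of_vertical_abs V H.sep H.isMVert H.isMCoord H.unif_all W hW hc hϖ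

end Fermat.Agent.BAD.LevelQ
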